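import Mathlib
import Fermat.Agent.S23.R2_Esymm
import Fermat.Agent.S16x.Asm.Defs

/-!
# S16 / package UPL + UPP (helper17, coordinator): interfaces

Targets (verbatim `Asm/Defs.lean`): `Asm.StUPL p`, `Asm.StUPP p`
(no `G ∈ M_2(Γ₀(p))` with `l`-integral `q`-expansion `≡ 1 mod l`, `l ≥ 5`, `l ≠ p` resp. `l = p`).

Consumed interfaces (each proved VERBATIM by its owner, the assembly takes them as hypotheses):

* `StEsymm p` ([CONJ], helper28): the `q`-expansion of the `i`-th elementary symmetric function of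
  the `SL(2, ℤ)`-conjugates of `G ∈ M_2(Γ₀(p))` (the level one form `S23.esymmMF G i` of weight
  `2 i`) is the `i`-th elementary symmetric function of the `t`-expansions (`t = q^(1/p)`) of
  the conjugates: `selfSeries p G` (`= G(t^p)`) once and `conjSeries p G j`
  (`= -(1/p) ∑ a_{pn} ζ_p^{jn} t^n`) for `p` values of `j` (with multiplicity; the consumers use
  only congruences of the single conjugates, so `js` need not be identified with `{0, …, p-1}`).
* `StSwd` ([SWD], helper29): a level one form of weight `w` whose `q`-expansion has coefficients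
  in a subring `R ∋ 1/2, 1/3` of `ℂ` and reduces to a nonzero constant under a ring homomorphism
  `φ : R → k`, `k` a field of characteristic `l ≥ 5`, has `(l - 1) ∣ w`.
-/

set_option autoImplicit false

open UpperHalfPlane ModularForm
open scoped MatrixGroups ModularForm

noncomputable section

namespace Fermat.Agent.S16x.Upl

/-- `ζ_p = exp(2πi/p)`. -/
def zetaP (p : ℕ) : ℂ := Complex.exp (2 * Real.pi * Complex.I / p)

/-- The `t`-expansion (`t = q^(1/p)`) of `G` itself: `G(t^p)`. -/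
def selfSeries (p : ℕ) (G : ModularForm (CongruenceSubgroup.Gamma0 p) 2) : PowerSeries ℂ :=
  PowerSeries.mk fun m => if p ∣ m then (qExpansion 1 G).coeff (m / p) else 0

/-- The `t`-expansion of the conjugate `G ∣ S T^j`: `-(1/p) ∑ a_{pn} ζ_p^{jn} t^n`. -/
def conjSeries (p : ℕ) (G : ModularForm (CongruenceSubgroup.Gamma0 p) 2) (j : ℕ) :
    PowerSeries ℂ :=
  PowerSeries.mk fun n => -(1 / (p : ℂ)) * (qExpansion 1 G).coeff (p * n) * zetaP p ^ (j * n)

/-- **[CONJ] → [UPL]/[UPP]/[UP2b]/[UP3b]**: `q`-expansions of the elementary symmetric functions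
of the conjugates. -/
def StEsymm (p : ℕ) [Fact p.Prime] : Prop :=
  ∀ (G : ModularForm (CongruenceSubgroup.Gamma0 p) 2) (i : ℕ),
    ∃ js : Multiset ℕ, Multiset.card js = p ∧ (∀ j ∈ js, j < p) ∧
      ∀ n : ℕ, (qExpansion 1 (Fermat.Agent.S23.esymmMF G i)).coeff n =
        PowerSeries.coeff (p * n)
          ((selfSeries p G ::ₘ js.map (conjSeries p G)).esymm i)

/-- **[SWD] → [UPL]/[UPP]**: Swinnerton-Dyer's weight congruence at level one. -/
def StSwd : Prop :=
  ∀ (l : ℕ) [Fact l.Prime], 5 ≤ l → ∀ (R : Subring ℂ), (2 : ℂ)⁻¹ ∈ R → (3 : ℂ)⁻¹ ∈ R →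
    ∀ (k : Type) [Field k] [CharP k l] (φ : R →+* k) (w : ℤ) (f : ModularForm 𝒮ℒ w)
      (hf : ∀ n, (qExpansion 1 f).coeff n ∈ R),
      (∀ n, 1 ≤ n → φ ⟨(qExpansion 1 f).coeff n, hf n⟩ = 0) →
      φ ⟨(qExpansion 1 f).coeff 0, hf 0⟩ ≠ 0 → ((l : ℤ) - 1) ∣ w

/-- The assembly of `[UPL]`. -/
def StUPLasm (p : ℕ) [Fact p.Prime] : Prop := StEsymm p → StSwd → Asm.StUPL p

/-- The assembly of `[UPP]`. -/
def StUPPasm (p : ℕ) [Fact p.Prime] : Prop := StEsymm p → StSwd → Asm.StUPP p

end Fermat.Agent.S16x.Upl
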