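import Mathlib

/-!
# S16 / package UPL (helper17): the algebraic lemma [UPL-A]

For a field `k` of characteristic `l ≥ 5`, `p ≥ 2` and `u : k`, some elementary symmetric function
`e_i(1, u, …, u)` (`p` copies of `u`) with `(l - 1) ∤ 2 i` is nonzero.

Proof: otherwise `P := (X - 1)(X - u)^p` satisfies `P(ζ X) = ζ^(p+1) P(X)` for some `ζ ≠ 1` with
`ζ ^ ((l-1)/2) = 1`; evaluating at `1` and at `ζ` gives `u = ζ = -1`, and then
`(X + 1)(X - 1)^p = (X - 1)(X + 1)^p`; cancelling `X - 1` and evaluating at `1` gives `2 ^ p = 0`.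
-/

set_option autoImplicit false

open Polynomial

namespace Fermat.Agent.S16x.Upl

/-- Core: `(X - 1)(X - u)^p` is not "`ζ`-homogeneous" for `ζ ≠ 1`. -/
theorem h17_exists_coeff_ne_zero {k : Type*} [Field k] (h2 : (2 : k) ≠ 0) {ζ : k} (hζ1 : ζ ≠ 1)
    (h : ℕ) (hh : 0 < h) (hζ : ζ ^ h = 1) (p : ℕ) (hp : 2 ≤ p) (u : k) :
    ∃ i, i ≤ p + 1 ∧ ¬ h ∣ i ∧ ((X - C 1) * (X - C u) ^ p : k[X]).coeff (p + 1 - i) ≠ 0 := by
  by_contra hcon
  push Not at hcon
  set P : k[X] := (X - C 1) * (X - C u) ^ p with hP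
  have hζ0 : ζ ≠ 0 := by
    rintro rfl
    rw [zero_pow hh.ne'] at hζ
    exact zero_ne_one hζ
  have hdeg : P.natDegree = p + 1 := by
    rw [hP, natDegree_mul (X_sub_C_ne_zero 1) (pow_ne_zero _ (X_sub_C_ne_zero u)),
      natDegree_pow, natDegree_X_sub_C, natDegree_X_sub_C]
    ring
  -- the functional equation
  have hfe : P.comp (C ζ * X) = C (ζ ^ (p + 1)) * P := by
    ext n
    rw [comp_C_mul_X_coeff, coeff_C_mul]
    by_cases hn : n ≤ p + 1
    · by_cases hc : P.coeff n = 0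
      · rw [hc]; simp
      · have hdvd : h ∣ (p + 1 - n) := by
          by_contra hnd
          apply hc
          have := hcon (p + 1 - n) (Nat.sub_le _ _) hnd
          rwa [Nat.sub_sub_self hn] at this
        obtain ⟨m, hm⟩ := hdvd
        have h1 : ζ ^ (p + 1 - n) = 1 := by rw [hm, pow_mul, hζ, one_pow]
        have h3 : ζ ^ (p + 1) = ζ ^ n := by
          calc ζ ^ (p + 1) = ζ ^ (n + (p + 1 - n)) := by rw [Nat.add_sub_cancel' hn]
            _ = ζ ^ n * ζ ^ (p + 1 - n) := pow_add _ _ _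
            _ = ζ ^ n := by rw [h1, mul_one]
        rw [h3, mul_comm]
    · have : P.coeff n = 0 := coeff_eq_zero_of_natDegree_lt (by omega)
      rw [this]; simp
  have hev : ∀ x : k, P.eval (ζ * x) = ζ ^ (p + 1) * P.eval x := by
    intro x
    have := congrArg (eval x) hfe
    simpa [eval_comp] using this
  have hPev : ∀ x : k, P.eval x = (x - 1) * (x - u) ^ p := by
    intro x; simp [hP]
  have hp0 : p ≠ 0 := by omega
  -- x = 1
  have hu : u = ζ := by
    have h1 := hev 1
    rw [mul_one, hPev, hPev] at h1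
    simp only [sub_self, zero_mul, mul_zero] at h1
    rcases mul_eq_zero.mp h1 with h1 | h1
    · exact absurd (sub_eq_zero.mp h1) hζ1
    · exact (sub_eq_zero.mp (pow_eq_zero_iff hp0 |>.mp h1)).symm
  -- x = ζ
  have hz2 : ζ = -1 := by
    have hPz : P.eval ζ = 0 := by rw [hPev, hu]; simp [hp0]
    have h1 := hev ζ
    rw [hPz, mul_zero, hPev] at h1
    rcases mul_eq_zero.mp h1 with h1 | h1
    · have h4 : (ζ - 1) * (ζ + 1) = 0 := by
        have : ζ * ζ = 1 := sub_eq_zero.mp h1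
        linear_combination this
      rcases mul_eq_zero.mp h4 with h5 | h5
      · exact absurd (sub_eq_zero.mp h5) hζ1
      · exact eq_neg_of_add_eq_zero_left h5
    · have h4 : ζ * ζ = u := sub_eq_zero.mp (pow_eq_zero_iff hp0 |>.mp h1)
      rw [hu] at h4
      have : ζ = 1 := by
        have h5 : ζ * (ζ - 1) = 0 := by linear_combination h4
        rcases mul_eq_zero.mp h5 with h6 | h6
        · exact absurd h6 hζ0
        · exact sub_eq_zero.mp h6
      exact absurd this hζ1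
  -- now u = ζ = -1
  rw [hu] at hP
  have hfe2 : ((X : k[X]) + 1) * (X - 1) ^ p = (X - 1) * (X + 1) ^ p := by
    have e1 : P = (X - 1) * (X + 1) ^ p := by
      rw [hP, hz2]; simp
    have e2 : P.comp (C ζ * X) = (-1) ^ (p + 1) * ((X + 1) * (X - 1) ^ p) := by
      rw [e1, hz2]
      simp only [map_neg, map_one, neg_mul, one_mul, mul_comp, sub_comp, X_comp, one_comp,
        pow_comp, add_comp]
      have a1 : (-(X : k[X]) - 1) = (-1) * (X + 1) := by ring
      have a2 : (-(X : k[X]) + 1) = (-1) * (X - 1) := by ring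
      rw [a1, a2, mul_pow]
      ring
    have e3 : C (ζ ^ (p + 1)) * P = (-1) ^ (p + 1) * ((X - 1) * (X + 1) ^ p) := by
      rw [e1, hz2]; simp
    have e4 := hfe
    rw [e2, e3] at e4
    have hne : ((-1 : k[X]) ^ (p + 1)) ≠ 0 := pow_ne_zero _ (neg_ne_zero.mpr one_ne_zero)
    exact mul_left_cancel₀ hne e4
  have hfe3 : ((X : k[X]) + 1) * (X - 1) ^ (p - 1) = (X + 1) ^ p := by
    have hX : (X : k[X]) - 1 ≠ 0 := by
      have := X_sub_C_ne_zero (1 : k)
      simpa using this
    apply mul_left_cancel₀ hX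
    have : (X - 1 : k[X]) ^ p = (X - 1) * (X - 1) ^ (p - 1) := by
      rw [← pow_succ', Nat.sub_add_cancel (by omega)]
    rw [← hfe2, this]; ring
  have := congrArg (eval (1 : k)) hfe3
  simp only [eval_mul, eval_add, eval_X, eval_one, eval_pow, eval_sub, sub_self] at this
  rw [zero_pow (by omega), mul_zero] at this
  have h22 : ((1 : k) + 1) = 2 := by norm_num
  rw [h22] at this
  exact pow_ne_zero p h2 this.symm

/-- In a field of characteristic `l ≥ 5`, `ζ = 4` satisfies `ζ ≠ 1` and `ζ ^ ((l-1)/2) = 1`. -/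
theorem h17_exists_zeta (k : Type*) [Field k] (l : ℕ) [hlp : Fact l.Prime] [CharP k l]
    (hl : 5 ≤ l) : ∃ ζ : k, ζ ≠ 1 ∧ ζ ^ ((l - 1) / 2) = 1 := by
  have hodd : l % 2 = 1 := by
    rcases hlp.out.eq_two_or_odd with h | h
    · omega
    · exact h
  have h2l : 2 * ((l - 1) / 2) = l - 1 := by omega
  have h2 : (2 : ZMod l) ≠ 0 := by
    intro h
    have h' : ((2 : ℕ) : ZMod l) = 0 := by exact_mod_cast h
    rw [ZMod.natCast_eq_zero_iff] at h'
    have := Nat.le_of_dvd (by norm_num) h'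
    omega
  have hF : (2 : ZMod l) ^ (l - 1) = 1 := ZMod.pow_card_sub_one_eq_one h2
  have hFk : (2 : k) ^ (l - 1) = 1 := by
    have := congrArg (ZMod.castHom (dvd_refl l) k) hF
    rw [map_pow, map_one, map_ofNat] at this
    exact this
  refine ⟨4, ?_, ?_⟩
  · intro h
    have h3 : ((3 : ℕ) : k) = 0 := by
      have : (4 : k) - 1 = 0 := sub_eq_zero.mpr h
      push_cast
      linear_combination this
    rw [CharP.cast_eq_zero_iff k l] at h3
    have := Nat.le_of_dvd (by norm_num) h3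
    omega
  · have : (4 : k) = 2 ^ 2 := by norm_num
    rw [this, ← pow_mul, h2l, hFk]

/-- **[UPL-A]** In characteristic `l ≥ 5`, for `p ≥ 2` and any `u`, some elementary symmetric
function `e_i(1, u, …, u)` with `(l - 1) ∤ 2 i` does not vanish. -/
theorem h17_exists_esymm_ne_zero (k : Type*) [Field k] (l : ℕ) [hlp : Fact l.Prime] [CharP k l]
    (hl : 5 ≤ l) (p : ℕ) (hp : 2 ≤ p) (u : k) :
    ∃ i, i ≤ p + 1 ∧ ¬ (l - 1) ∣ 2 * i ∧ ((1 : k) ::ₘ Multiset.replicate p u).esymm i ≠ 0 := by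
  have hodd : l % 2 = 1 := by
    rcases hlp.out.eq_two_or_odd with h | h
    · omega
    · exact h
  have h2l : 2 * ((l - 1) / 2) = l - 1 := by omega
  obtain ⟨ζ, hζ1, hζ⟩ := h17_exists_zeta k l hl
  have h2 : (2 : k) ≠ 0 := by
    intro h
    have h' : ((2 : ℕ) : k) = 0 := by exact_mod_cast h
    rw [CharP.cast_eq_zero_iff k l] at h'
    have := Nat.le_of_dvd (by norm_num) h'
    omega
  obtain ⟨i, hi, hdvd, hc⟩ :=
    h17_exists_coeff_ne_zero h2 hζ1 ((l - 1) / 2) (by omega) hζ p hp u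
  refine ⟨i, hi, ?_, ?_⟩
  · intro hd
    apply hdvd
    rw [← h2l] at hd
    exact (Nat.mul_dvd_mul_iff_left (by norm_num)).mp hd
  · intro he
    apply hc
    set s : Multiset k := (1 : k) ::ₘ Multiset.replicate p u with hs
    have hcard : Multiset.card s = p + 1 := by simp [hs]
    have hprod : (s.map fun t => X - C t).prod = (X - C 1) * (X - C u) ^ p := by
      simp [hs, Multiset.map_replicate, Multiset.prod_replicate]
    have := Multiset.prod_X_sub_C_coeff s (k := p + 1 - i) (by rw [hcard]; omega)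
    rw [hprod, hcard, Nat.sub_sub_self hi, he, mul_zero] at this
    exact this

/-- **[UPP-A]** `e_p(0, -1, …, -1) = (-1)^p` (`p` copies of `-1`). -/
theorem h17_esymm_zero_neg_one (k : Type*) [CommRing k] (p : ℕ) :
    ((0 : k) ::ₘ Multiset.replicate p (-1)).esymm p = (-1) ^ p := by
  set s : Multiset k := (0 : k) ::ₘ Multiset.replicate p (-1) with hs
  have hcard : Multiset.card s = p + 1 := by simp [hs]
  have hprod : (s.map fun t => X - C t).prod = X * (X + 1) ^ p := by
    simp [hs, Multiset.map_replicate, Multiset.prod_replicate]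
  have h1 := Multiset.prod_X_sub_C_coeff s (k := 1) (by rw [hcard]; omega)
  rw [hprod, hcard, Nat.add_sub_cancel] at h1
  have h2 : ((X : k[X]) * (X + 1) ^ p).coeff 1 = 1 := by
    rw [show (1 : ℕ) = 0 + 1 from rfl, coeff_X_mul]
    simp [coeff_zero_eq_eval_zero]
  rw [h2] at h1
  have h3 : ((-1 : k) ^ p) * ((-1) ^ p * s.esymm p) = (-1) ^ p * 1 := by rw [← h1]
  rw [← mul_assoc, ← mul_pow] at h3
  simpa using h3

/-- `(p - 1) ∤ 2 p` for `p ≥ 4`. -/
theorem h17_not_dvd_two_mul (p : ℕ) (hp : 4 ≤ p) : ¬ (p - 1) ∣ 2 * p := by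
  intro h
  have h1 : (p - 1) ∣ 2 * (p - 1) := dvd_mul_left _ _
  have h2 : 2 * p = 2 * (p - 1) + 2 := by omega
  rw [h2] at h
  have h3 : (p - 1) ∣ 2 := (Nat.dvd_add_right h1).mp h
  have := Nat.le_of_dvd (by norm_num) h3
  omega

end Fermat.Agent.S16x.Upl
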