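import Mathlib
import Fermat.Agent.S16x.Asm.H6_Int
import Fermat.Agent.S16x.Upl.Defs
import Fermat.Agent.S16x.Upl.H17_Alg

/-!
# S16 / package UPL + UPP (helper17): generic reduction lemmas

* `h17_map_esymm` : ring homomorphisms commute with `Multiset.esymm`;
* `h17_exists_maximal` : a maximal ideal of `intL l` containing `l`;
* `h17_zetaP_mem`, `h17_coeff_mem`, … : membership facts for `intL l`.
-/

set_option autoImplicit false

open PowerSeries

namespace Fermat.Agent.S16x.Upl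

/-- Ring homomorphisms commute with elementary symmetric functions of multisets. -/
theorem h17_map_esymm {A B : Type*} [CommSemiring A] [CommSemiring B] (f : A →+* B)
    (s : Multiset A) (i : ℕ) : f (s.esymm i) = (s.map f).esymm i := by
  simp only [Multiset.esymm, map_multiset_sum, Multiset.map_map, Multiset.powersetCard_map]
  congr 1
  apply Multiset.map_congr rfl
  intro t _
  simp [map_multiset_prod]

/-- A maximal ideal of the ring of `l`-integral algebraic numbers containing `l`. -/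
theorem h17_exists_maximal (l : ℕ) (hl : l.Prime) :
    ∃ 𝔪 : Ideal (intL l), 𝔪.IsMaximal ∧ ((l : ℕ) : intL l) ∈ 𝔪 := by
  have hne : Ideal.span {((l : ℕ) : intL l)} ≠ ⊤ := by
    rw [Ideal.ne_top_iff_one, Ideal.mem_span_singleton']
    rintro ⟨r, hr⟩
    have h1 : (l : ℂ) * (r : ℂ) = 1 := by
      have := congrArg Subtype.val hr
      simp only [Subring.coe_mul, Subring.coe_natCast, Subring.coe_one] at this
      linear_combination this
    exact not_mem_intL_of_mul_eq_one hl h1 r.2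
  obtain ⟨𝔪, hm, hle⟩ := Ideal.exists_le_maximal _ hne
  exact ⟨𝔪, hm, hle (Ideal.subset_span rfl)⟩

/-- `ζ_p` is `l`-integral. -/
theorem h17_zetaP_mem (l p : ℕ) (hp : p ≠ 0) : zetaP p ∈ intL l := by
  apply mem_intL_of_isIntegral
  have h := Complex.isPrimitiveRoot_exp p hp
  exact h.isIntegral (Nat.pos_of_ne_zero hp)

/-- Coprimality from non-divisibility by a prime. -/
theorem h17_coprime {l b : ℕ} (hl : l.Prime) (hb : ¬ l ∣ b) : b.Coprime l :=
  ((Nat.Prime.coprime_iff_not_dvd hl).mpr hb).symm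

/-- The coefficients of a form which is `≡ 1 mod M'` (`l`-integrally) are `l`-integral. -/
theorem h17_coeff_mem {l M' : ℕ} (hl : l.Prime) {a : ℕ → ℂ} (h0 : a 0 = 1) {b : ℕ}
    (hb : ¬ l ∣ b) (hk : ∀ k : ℕ, 1 ≤ k → ∃ c : ℤ, (b : ℂ) * a k = (M' : ℂ) * (c : ℂ)) (n : ℕ) :
    a n ∈ intL l := by
  rcases Nat.eq_zero_or_pos n with rfl | hn
  · rw [h0]; exact Subring.one_mem _
  · obtain ⟨c, hc⟩ := hk n hn
    have hb0 : b ≠ 0 := by rintro rfl; exact hb (dvd_zero l)
    have hb' : (b : ℂ) ≠ 0 := Nat.cast_ne_zero.mpr hb0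
    have e : a n = (((M' : ℤ) * c : ℤ) : ℂ) / (b : ℂ) := by
      push_cast
      field_simp
      linear_combination hc
    rw [e]
    exact div_mem_intL l _ (h17_coprime hl hb) hb0

/-- For `k ≥ 1` the coefficients are multiples of `M'` in `intL l`. -/
theorem h17_coeff_eq_mul {l M' : ℕ} (hl : l.Prime) {a : ℕ → ℂ} {b : ℕ}
    (hb : ¬ l ∣ b) (hk : ∀ k : ℕ, 1 ≤ k → ∃ c : ℤ, (b : ℂ) * a k = (M' : ℂ) * (c : ℂ)) (n : ℕ)
    (hn : 1 ≤ n) : ∃ r ∈ intL l, a n = (M' : ℂ) * r := by
  obtain ⟨c, hc⟩ := hk n hn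
  have hb0 : b ≠ 0 := by rintro rfl; exact hb (dvd_zero l)
  have hb' : (b : ℂ) ≠ 0 := Nat.cast_ne_zero.mpr hb0
  refine ⟨(c : ℂ) / (b : ℂ), div_mem_intL l c (h17_coprime hl hb) hb0, ?_⟩
  field_simp
  linear_combination hc

end Fermat.Agent.S16x.Upl
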