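import Mathlib
import Fermat.Agent.S16x.Asm.H6_Int
import Fermat.Agent.S16x.Upl.Defs
import Fermat.Agent.S16x.Upl.H17_Alg
import Fermat.Agent.S16x.Upl.H17_Red

/-!
# S16 / package UPL + UPP (helper17): the assemblies `StUPLasm`, `StUPPasm`

`StEsymm p → StSwd → Asm.StUPL p` and `StEsymm p → StSwd → Asm.StUPP p`.
-/

set_option autoImplicit false
set_option linter.style.haveILetI false
set_option linter.unusedSectionVars false

open PowerSeries UpperHalfPlane ModularForm
open scoped MatrixGroups ModularForm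

noncomputable section

namespace Fermat.Agent.S16x.Upl

attribute [local instance] Ideal.Quotient.field

section Core

variable {l : ℕ} (R : Subring ℂ) {k : Type} [Field k] (φ : R →+* k)

/-- The abstract reduction step: a multiset of power series over `ℂ` which is the image of a
multiset of power series over `R` whose reductions are the constants `cs`. -/
theorem h17_reduce (sR : Multiset (PowerSeries R)) (cs : Multiset k)
    (hred : sR.map (PowerSeries.map φ) = cs.map (PowerSeries.C (R := k))) (i : ℕ) (m : ℕ) :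
    ∃ h : PowerSeries.coeff m ((sR.map (PowerSeries.map R.subtype)).esymm i) ∈ R,
      φ ⟨_, h⟩ = if m = 0 then cs.esymm i else 0 := by
  have e1 : (sR.map (PowerSeries.map R.subtype)).esymm i
      = PowerSeries.map R.subtype (sR.esymm i) := (h17_map_esymm _ _ _).symm
  have e2 : PowerSeries.map φ (sR.esymm i) = PowerSeries.C (cs.esymm i) := by
    rw [h17_map_esymm, hred, ← h17_map_esymm]
  have hc : PowerSeries.coeff m ((sR.map (PowerSeries.map R.subtype)).esymm i)
      = ((PowerSeries.coeff m (sR.esymm i) : R) : ℂ) := by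
    rw [e1, PowerSeries.coeff_map]; rfl
  refine ⟨by rw [hc]; exact Subtype.property _, ?_⟩
  have h3 : (⟨PowerSeries.coeff m ((sR.map (PowerSeries.map R.subtype)).esymm i),
      by rw [hc]; exact Subtype.property _⟩ : R) = PowerSeries.coeff m (sR.esymm i) :=
    Subtype.ext hc
  rw [h3, ← PowerSeries.coeff_map, e2, PowerSeries.coeff_C]

end Core

section Main

variable (p : ℕ) [hp : Fact p.Prime]

/-- **[UPL] assembly**: `l ≥ 5`, `l ≠ p`. -/
theorem h17_stUPLasm : StUPLasm p := by
  intro hE hS hp5 l hl hl5 hlp G hG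
  obtain ⟨h0, b, hb, hk⟩ := hG
  haveI : Fact l.Prime := ⟨hl⟩
  have hp0 : p ≠ 0 := hp.out.ne_zero
  obtain ⟨𝔪, hm, hlm⟩ := h17_exists_maximal l hl
  haveI := hm
  let φ : intL l →+* (intL l ⧸ 𝔪) := Ideal.Quotient.mk 𝔪
  have hφl : φ ((l : ℕ) : intL l) = 0 := Ideal.Quotient.eq_zero_iff_mem.mpr hlm
  haveI : CharP (intL l ⧸ 𝔪) l :=
    (CharP.charP_iff_prime_eq_zero hl).mpr (by simpa using hφl)
  -- coefficients of `G`
  have ha : ∀ n, (qExpansion 1 G).coeff n ∈ intL l :=
    h17_coeff_mem (a := fun n => (qExpansion 1 G).coeff n) hl h0 hb hk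
  let aR : ℕ → intL l := fun n => ⟨(qExpansion 1 G).coeff n, ha n⟩
  have haR0 : φ (aR 0) = 1 := by
    have : aR 0 = 1 := Subtype.ext h0
    rw [this, map_one]
  have haRn : ∀ n, 1 ≤ n → φ (aR n) = 0 := by
    intro n hn
    obtain ⟨r, hr, hrn⟩ := h17_coeff_eq_mul (a := fun n => (qExpansion 1 G).coeff n) hl hb hk n hn
    have : aR n = ((l : ℕ) : intL l) * ⟨r, hr⟩ := Subtype.ext (by simpa using hrn)
    rw [this, map_mul, hφl, zero_mul]
  -- `ζ_p` and `1/p`
  let ζR : intL l := ⟨zetaP p, h17_zetaP_mem l p hp0⟩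
  have hpl : p.Coprime l := (Nat.coprime_primes hp.out hl).mpr (Ne.symm hlp)
  let ipR : intL l := ⟨1 / (p : ℂ), by simpa using div_mem_intL l 1 hpl hp0⟩
  -- the lifted series
  let selfR : PowerSeries (intL l) := PowerSeries.mk fun m => if p ∣ m then aR (m / p) else 0
  let conjR : ℕ → PowerSeries (intL l) := fun j =>
    PowerSeries.mk fun n => -ipR * aR (p * n) * ζR ^ (j * n)
  have hself : PowerSeries.map (intL l).subtype selfR = selfSeries p G := by
    ext m
    simp only [selfR, selfSeries, PowerSeries.coeff_map, PowerSeries.coeff_mk]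
    split_ifs <;> simp [aR]
  have hconj : ∀ j, PowerSeries.map (intL l).subtype (conjR j) = conjSeries p G j := by
    intro j
    ext n
    simp [conjR, conjSeries, PowerSeries.coeff_map, PowerSeries.coeff_mk, aR, ipR, ζR]
  have hselfφ : PowerSeries.map φ selfR = PowerSeries.C 1 := by
    ext m
    simp only [selfR, PowerSeries.coeff_map, PowerSeries.coeff_mk, PowerSeries.coeff_C]
    rcases Nat.eq_zero_or_pos m with rfl | hmpos
    · simp [haR0]
    · rw [if_neg hmpos.ne']
      split_ifs with hd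
      · apply haRn
        exact Nat.div_pos (Nat.le_of_dvd hmpos hd) (Nat.pos_of_ne_zero hp0)
      · exact map_zero φ
  have hconjφ : ∀ j, PowerSeries.map φ (conjR j) = PowerSeries.C (φ (-ipR)) := by
    intro j
    ext n
    simp only [conjR, PowerSeries.coeff_map, PowerSeries.coeff_mk, PowerSeries.coeff_C]
    rcases Nat.eq_zero_or_pos n with rfl | hnpos
    · simp [haR0]
    · rw [if_neg hnpos.ne', map_mul, map_mul, haRn _ (Nat.mul_pos (Nat.pos_of_ne_zero hp0) hnpos)]
      simp
  -- the index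
  obtain ⟨i, hi, hnd, hne⟩ :=
    h17_exists_esymm_ne_zero (intL l ⧸ 𝔪) l hl5 p hp.out.two_le (φ (-ipR))
  obtain ⟨js, hcard, hjs, hcoef⟩ := hE G i
  have hsC : (selfR ::ₘ js.map conjR).map (PowerSeries.map (intL l).subtype)
      = selfSeries p G ::ₘ js.map (conjSeries p G) := by
    rw [Multiset.map_cons, Multiset.map_map, hself]
    exact congrArg _ (Multiset.map_congr rfl fun j _ => hconj j)
  have hsφ : (selfR ::ₘ js.map conjR).map (PowerSeries.map φ)
      = ((1 : intL l ⧸ 𝔪) ::ₘ Multiset.replicate p (φ (-ipR))).map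
          (PowerSeries.C (R := intL l ⧸ 𝔪)) := by
    rw [Multiset.map_cons, Multiset.map_map, hselfφ, Multiset.map_cons, Multiset.map_replicate]
    have e : Multiset.map (⇑(PowerSeries.map φ) ∘ conjR) js
        = Multiset.map (fun _ => PowerSeries.C (φ (-ipR))) js :=
      Multiset.map_congr rfl (fun j _ => hconjφ j)
    rw [e, Multiset.map_const', hcard, map_one]
  have key := fun n => h17_reduce (intL l) φ (selfR ::ₘ js.map conjR) _ hsφ i (p * n)
  have hf : ∀ n, (qExpansion 1 (Fermat.Agent.S23.esymmMF G i)).coeff n ∈ intL l := by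
    intro n
    rw [hcoef n, ← hsC]
    exact (key n).1
  have h2 : (2 : ℂ)⁻¹ ∈ intL l := by
    have h2l : (2 : ℕ).Coprime l := (Nat.coprime_primes Nat.prime_two hl).mpr (by omega)
    simpa using div_mem_intL l 1 h2l (by norm_num)
  have h3 : (3 : ℂ)⁻¹ ∈ intL l := by
    have h3l : (3 : ℕ).Coprime l := (Nat.coprime_primes Nat.prime_three hl).mpr (by omega)
    simpa using div_mem_intL l 1 h3l (by norm_num)
  have hval : ∀ n, φ ⟨(qExpansion 1 (Fermat.Agent.S23.esymmMF G i)).coeff n, hf n⟩
      = if p * n = 0 then ((1 : intL l ⧸ 𝔪) ::ₘ Multiset.replicate p (φ (-ipR))).esymm i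
        else 0 := by
    intro n
    obtain ⟨h, hh⟩ := key n
    rw [← hh]
    congr 1
    apply Subtype.ext
    simp only
    rw [hcoef n, ← hsC]
  have hdvd := hS l hl5 (intL l) h2 h3 (intL l ⧸ 𝔪) φ _ (Fermat.Agent.S23.esymmMF G i) hf
    (by
      intro n hn
      rw [hval n, if_neg]
      exact Nat.mul_ne_zero hp0 (by omega))
    (by
      rw [hval 0, if_pos (by simp)]
      exact hne)
  apply hnd
  have h1 : ((l : ℤ) - 1) = ((l - 1 : ℕ) : ℤ) := by
    rw [Nat.cast_sub hl.one_le]; simp
  rw [h1] at hdvd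
  have h22 : (2 : ℤ) * (i : ℤ) = ((2 * i : ℕ) : ℤ) := by push_cast; ring
  rw [h22] at hdvd
  exact Int.natCast_dvd_natCast.mp hdvd

/-- **[UPP] assembly**: `l = p`. -/
theorem h17_stUPPasm : StUPPasm p := by
  intro hE hS hp5 G hG
  obtain ⟨h0, b, hb, hk⟩ := hG
  have hl : p.Prime := hp.out
  have hp0 : p ≠ 0 := hp.out.ne_zero
  obtain ⟨𝔪, hm, hlm⟩ := h17_exists_maximal p hl
  haveI := hm
  let φ : intL p →+* (intL p ⧸ 𝔪) := Ideal.Quotient.mk 𝔪
  have hφl : φ ((p : ℕ) : intL p) = 0 := Ideal.Quotient.eq_zero_iff_mem.mpr hlm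
  haveI : CharP (intL p ⧸ 𝔪) p :=
    (CharP.charP_iff_prime_eq_zero hl).mpr (by simpa using hφl)
  -- coefficients of `G`
  have ha : ∀ n, (qExpansion 1 G).coeff n ∈ intL p :=
    h17_coeff_mem (a := fun n => (qExpansion 1 G).coeff n) hl h0 hb hk
  let aR : ℕ → intL p := fun n => ⟨(qExpansion 1 G).coeff n, ha n⟩
  have haR0 : φ (aR 0) = 1 := by
    have : aR 0 = 1 := Subtype.ext h0
    rw [this, map_one]
  have haRn : ∀ n, 1 ≤ n → φ (aR n) = 0 := by
    intro n hn
    obtain ⟨r, hr, hrn⟩ := h17_coeff_eq_mul (a := fun n => (qExpansion 1 G).coeff n) hl hb hk n hn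
    have : aR n = ((p : ℕ) : intL p) * ⟨r, hr⟩ := Subtype.ext (by simpa using hrn)
    rw [this, map_mul, hφl, zero_mul]
  let ζR : intL p := ⟨zetaP p, h17_zetaP_mem p p hp0⟩
  -- the lifted series of `p •` the conjugates
  let selfR : PowerSeries (intL p) :=
    PowerSeries.mk fun m => if p ∣ m then ((p : ℕ) : intL p) * aR (m / p) else 0
  let conjR : ℕ → PowerSeries (intL p) := fun j =>
    PowerSeries.mk fun n => -aR (p * n) * ζR ^ (j * n)
  have hpc : (p : ℂ) ≠ 0 := Nat.cast_ne_zero.mpr hp0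
  have hself : PowerSeries.map (intL p).subtype selfR = (p : ℂ) • selfSeries p G := by
    ext m
    simp only [selfR, selfSeries, PowerSeries.coeff_map, PowerSeries.coeff_mk,
      PowerSeries.coeff_smul]
    split_ifs <;> simp [aR]
  have hconj : ∀ j, PowerSeries.map (intL p).subtype (conjR j) = (p : ℂ) • conjSeries p G j := by
    intro j
    ext n
    simp only [conjR, conjSeries, PowerSeries.coeff_map, PowerSeries.coeff_mk,
      PowerSeries.coeff_smul]
    simp only [aR, ζR, Subring.subtype_apply, Subring.coe_mul, Subring.coe_neg, Subring.coe_pow,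
      smul_eq_mul]
    field_simp
  have hselfφ : PowerSeries.map φ selfR = PowerSeries.C 0 := by
    ext m
    simp only [selfR, PowerSeries.coeff_map, PowerSeries.coeff_mk, map_zero]
    split_ifs
    · rw [map_mul, hφl, zero_mul]
    · exact map_zero φ
  have hconjφ : ∀ j, PowerSeries.map φ (conjR j) = PowerSeries.C (-1) := by
    intro j
    ext n
    simp only [conjR, PowerSeries.coeff_map, PowerSeries.coeff_mk, PowerSeries.coeff_C]
    rcases Nat.eq_zero_or_pos n with rfl | hnpos
    · simp [haR0]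
    · rw [if_neg hnpos.ne', map_mul, map_neg,
        haRn _ (Nat.mul_pos (Nat.pos_of_ne_zero hp0) hnpos)]
      simp
  obtain ⟨js, hcard, hjs, hcoef⟩ := hE G p
  have hsC : (selfR ::ₘ js.map conjR).map (PowerSeries.map (intL p).subtype)
      = (selfSeries p G ::ₘ js.map (conjSeries p G)).map ((p : ℂ) • ·) := by
    rw [Multiset.map_cons, Multiset.map_map, hself, Multiset.map_cons, Multiset.map_map]
    exact congrArg _ (Multiset.map_congr rfl fun j _ => hconj j)
  have hsφ : (selfR ::ₘ js.map conjR).map (PowerSeries.map φ)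
      = ((0 : intL p ⧸ 𝔪) ::ₘ Multiset.replicate p (-1)).map
          (PowerSeries.C (R := intL p ⧸ 𝔪)) := by
    rw [Multiset.map_cons, Multiset.map_map, hselfφ, Multiset.map_cons, Multiset.map_replicate]
    have e : Multiset.map (⇑(PowerSeries.map φ) ∘ conjR) js
        = Multiset.map (fun _ => PowerSeries.C (-1 : intL p ⧸ 𝔪)) js :=
      Multiset.map_congr rfl (fun j _ => hconjφ j)
    rw [e, Multiset.map_const', hcard]
  have key := fun n => h17_reduce (intL p) φ (selfR ::ₘ js.map conjR) _ hsφ p (p * n)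
  -- the scaled form
  set Φ : ModularForm 𝒮ℒ ((2 : ℤ) * (p : ℤ)) :=
    ((p : ℂ) ^ p) • Fermat.Agent.S23.esymmMF G p with hΦ
  have hΦq : ∀ n, (qExpansion 1 Φ).coeff n = PowerSeries.coeff (p * n)
      (((selfR ::ₘ js.map conjR).map (PowerSeries.map (intL p).subtype)).esymm p) := by
    intro n
    have e1 : qExpansion 1 Φ
        = ((p : ℂ) ^ p) • qExpansion 1 (Fermat.Agent.S23.esymmMF G p) := by
      have := ModularForm.qExpansion_smul (h := 1) one_pos
        one_mem_strictPeriods_SL ((p : ℂ) ^ p) (Fermat.Agent.S23.esymmMF G p)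
      rw [← this]
      rfl
    rw [e1, PowerSeries.coeff_smul, hcoef n, hsC, ← Multiset.pow_smul_esymm,
      PowerSeries.coeff_smul]
  have hf : ∀ n, (qExpansion 1 Φ).coeff n ∈ intL p := by
    intro n
    rw [hΦq n]
    exact (key n).1
  have h2 : (2 : ℂ)⁻¹ ∈ intL p := by
    have h2l : (2 : ℕ).Coprime p := (Nat.coprime_primes Nat.prime_two hl).mpr (by omega)
    simpa using div_mem_intL p 1 h2l (by norm_num)
  have h3 : (3 : ℂ)⁻¹ ∈ intL p := by
    have h3l : (3 : ℕ).Coprime p := (Nat.coprime_primes Nat.prime_three hl).mpr (by omega)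
    simpa using div_mem_intL p 1 h3l (by norm_num)
  have hval : ∀ n, φ ⟨(qExpansion 1 Φ).coeff n, hf n⟩
      = if p * n = 0 then ((0 : intL p ⧸ 𝔪) ::ₘ Multiset.replicate p (-1)).esymm p
        else 0 := by
    intro n
    obtain ⟨h, hh⟩ := key n
    rw [← hh]
    congr 1
    apply Subtype.ext
    simp only
    rw [hΦq n]
  have hdvd := hS p hp5 (intL p) h2 h3 (intL p ⧸ 𝔪) φ _ Φ hf
    (by
      intro n hn
      rw [hval n, if_neg]
      exact Nat.mul_ne_zero hp0 (by omega))
    (by
      rw [hval 0, if_pos (by simp), h17_esymm_zero_neg_one]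
      exact pow_ne_zero _ (neg_ne_zero.mpr one_ne_zero))
  apply h17_not_dvd_two_mul p (by omega)
  have h1 : ((p : ℤ) - 1) = ((p - 1 : ℕ) : ℤ) := by
    rw [Nat.cast_sub hl.one_le]; simp
  rw [h1] at hdvd
  have h22 : (2 : ℤ) * (p : ℤ) = ((2 * p : ℕ) : ℤ) := by push_cast; ring
  rw [h22] at hdvd
  exact Int.natCast_dvd_natCast.mp hdvd

end Main

end Fermat.Agent.S16x.Upl
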