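import Mathlib
import Fermat.Agent.S16x.Upl.Defs
import Fermat.Agent.S16x.Swd.H29_Asm
import Fermat.Agent.S16x.Swd.H14_Core
import Fermat.Agent.S16x.Swd.H8_Ram

/-!
# S16, packages [UPL]/[UPP]: the input `StSwd`, hypothesis-free (helper17)

Pure wiring: `Swd.H29.swd_hom_of` (helper29) applied to the leaves [RAM] (helper8) and [ALG]
(helper14).
-/

set_option autoImplicit false

open UpperHalfPlane ModularForm SlashInvariantForm SlashInvariantFormClass ModularFormClass
  CuspFormClass MatrixGroups EisensteinSeries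

noncomputable section

namespace Fermat.Agent.S16x.Upl

/-- The leaf [RAM] in the shape consumed by `Swd.H29.swd_hom_of`. -/
theorem h17_stRam : Swd.H29.StRam :=
  ⟨Swd.H8.Pz, Swd.H8.Qz, Swd.H8.Rz, Swd.H8.constantCoeff_Pz, Swd.H8.qExpansion_E4_eq_map.symm,
    Swd.H8.qExpansion_E6_eq_map.symm, Swd.H8.ramanujan_Pz, Swd.H8.ramanujan_Qz,
    Swd.H8.ramanujan_Rz⟩

/-- The leaf [ALG] in the shape consumed by `Swd.H29.swd_hom_of`. -/
theorem h17_stCore : Swd.H29.StCore.{0} := by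
  intro k _ l _ _ hl Ps Qs Rs hP0 hQ0 hR0 hD0 hP hQ hR A hA hAq f w hf c hc hfq
  exact Swd.H14.swd_core k l hl Ps Qs Rs hP0 hQ0 hR0 hD0 hP hQ hR A hA hAq f w hf c hc hfq

/-- **(SWD)**, hypothesis-free, VERBATIM `Upl.StSwd`. -/
theorem h17_stSwd : StSwd := by
  intro l _ hl R _ _ k _ _ φ w f hf hn h0
  exact Swd.H29.swd_hom_of h17_stRam h17_stCore l hl R φ w f hf hn h0

end Fermat.Agent.S16x.Upl
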