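import Mathlib
import Fermat.Agent.S16x.Upl.H17_Asm
import Fermat.Agent.S16x.Upl.H17_Swd
import Fermat.Agent.S16x.Conj.H28_Esymm
import Fermat.Agent.S16x.Conj.H3_Final

/-!
# S16, packages [UPL]/[UPP]: final wiring (helper17)

`Asm.StUPL p` and `Asm.StUPP p` with `Conj.StTwo p` ([C7]) as the ONLY hypothesis:
`StSwd` is `h17_stSwd`, `StEsymm p` is helper28's adapter applied to helper3's
`H3.stMainCoeff`, `H3.stInfty` and the hypothesis.
-/

set_option autoImplicit false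

noncomputable section

namespace Fermat.Agent.S16x.Upl

/-- `StEsymm p` from [C7]. -/
theorem h17_stEsymm_of_two (p : ℕ) [Fact p.Prime] (hTwo : Conj.StTwo p) : StEsymm p :=
  Conj.H28.h28_stEsymm_of p (Conj.H3.stMainCoeff p) (Conj.H3.stInfty p) hTwo

/-- **[UPL]** (`hL` of `Asm.H24.result_of`), modulo [C7]. -/
theorem h17_stUPL_of_two (p : ℕ) [Fact p.Prime] (hTwo : Conj.StTwo p) : Asm.StUPL p :=
  h17_stUPLasm p (h17_stEsymm_of_two p hTwo) h17_stSwd

/-- **[UPP]** (`hP` of `Asm.H24.result_of`), modulo [C7]. -/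
theorem h17_stUPP_of_two (p : ℕ) [Fact p.Prime] (hTwo : Conj.StTwo p) : Asm.StUPP p :=
  h17_stUPPasm p (h17_stEsymm_of_two p hTwo) h17_stSwd

end Fermat.Agent.S16x.Upl
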