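import Mathlib
import Fermat.Agent.S16x.Upl.H17_Final
import Fermat.Agent.S16x.Conj.H20_Two

/-!
# S16, packages [UPL]/[UPP]: CLOSED, hypothesis-free (helper17)

`hL` and `hP` of `Asm.result_of`: `h17_stUPL p : Asm.StUPL p`, `h17_stUPP p : Asm.StUPP p`,
with [C7] = helper20's `Conj.H20.stTwo`.
-/

set_option autoImplicit false

noncomputable section

namespace Fermat.Agent.S16x.Upl

/-- `StEsymm p`, hypothesis-free. -/
theorem h17_stEsymm (p : ℕ) [Fact p.Prime] : StEsymm p :=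
  h17_stEsymm_of_two p (Conj.H20.stTwo p)

/-- **[UPL]**, hypothesis-free: `hL` of `Asm.result_of`. -/
theorem h17_stUPL (p : ℕ) [Fact p.Prime] : Asm.StUPL p :=
  h17_stUPL_of_two p (Conj.H20.stTwo p)

/-- **[UPP]**, hypothesis-free: `hP` of `Asm.result_of`. -/
theorem h17_stUPP (p : ℕ) [Fact p.Prime] : Asm.StUPP p :=
  h17_stUPP_of_two p (Conj.H20.stTwo p)

end Fermat.Agent.S16x.Upl
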